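/-
Programme MS (S12, Mazur), chapter MOD, file RatStable3 (helper3): **the Vélu `j`-invariant of a
`G_ℚ`-STABLE cyclic subgroup is rational** (generalising `MZ/MOD/RatPoint5.exists_rat_veluJ`, where
the generator itself was `G_ℚ`-fixed).

* `mem_xsOf_iff` : for `Q` of exact order `N > 0`, `xsOf Q N` is the set of `x`-coordinates of the
  nonzero points of `⟨Q⟩`;
* `xsOf_eq_of_mem_zmultiples` : it depends only on the subgroup `⟨Q⟩`;
* `exists_rat_veluJ_of_stable` : `σ • Q ∈ ⟨Q⟩` for all `σ ∈ G_ℚ` ⇒ `veluJ (W/ℚ̄) (xsOf Q N) ∈ ℚ`;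
* `stable_nsmul` : `⟨m • Q⟩` is then stable too.
-/
import Mathlib
import Fermat.Agent.MZ.MOD.RatPoint5

set_option autoImplicit false
set_option linter.unusedSectionVars false
set_option linter.unusedVariables false
set_option linter.style.longLine false

namespace Fermat.Agent.MS.MOD.RatStable3

open WeierstrassCurve WeierstrassCurve.Affine
open Fermat.Agent.MZ.MOD.VeluDef4 Fermat.Agent.MZ.MOD.LTTransport5
open Fermat.Agent.MZ.MOD.RatPoint5

local notation "Qb" => AlgebraicClosure ℚ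

noncomputable section

section Field

variable {F : Type*} [Field F] [DecidableEq F] {W : WeierstrassCurve F}

/-- for `Q` of exact order `N`, `xsOf Q N` is the set of `x`-coordinates of `⟨Q⟩ ∖ 0`. -/
theorem mem_xsOf_iff (Q : W.toAffine.Point) {N : ℕ} (hN : 0 < N) (hord : addOrderOf Q = N)
    (x : F) : x ∈ xsOf Q N ↔ ∃ P ∈ AddSubgroup.zmultiples Q, P ≠ 0 ∧ xOf P = x := by
  unfold xsOf
  rw [Finset.mem_image]
  constructor
  · rintro ⟨k, hk, rfl⟩
    rw [Finset.mem_Ico] at hk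
    refine ⟨k • Q, ?_, ?_, rfl⟩
    · exact AddSubgroup.nsmul_mem_zmultiples Q k
    · intro h0
      have hdvd : addOrderOf Q ∣ k := addOrderOf_dvd_of_nsmul_eq_zero h0
      rw [hord] at hdvd
      have := Nat.le_of_dvd (by omega) hdvd
      omega
  · rintro ⟨P, hP, hP0, rfl⟩
    obtain ⟨m, rfl⟩ := AddSubgroup.mem_zmultiples_iff.1 hP
    have hNQ : (N : ℤ) • Q = 0 := by
      rw [natCast_zsmul, ← hord]
      exact addOrderOf_nsmul_eq_zero Q
    have hN' : (N : ℤ) ≠ 0 := by exact_mod_cast hN.ne'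
    have hmod : m • Q = (m % (N : ℤ)) • Q := by
      conv_lhs => rw [← Int.emod_add_mul_ediv m N, add_zsmul, mul_comm, mul_zsmul, hNQ, smul_zero,
        add_zero]
    have h0 : 0 ≤ m % (N : ℤ) := Int.emod_nonneg m hN'
    have hlt : m % (N : ℤ) < N := Int.emod_lt_of_pos m (by exact_mod_cast hN)
    obtain ⟨k, hk⟩ := Int.eq_ofNat_of_zero_le h0
    refine ⟨k, ?_, ?_⟩
    · rw [Finset.mem_Ico]
      refine ⟨?_, by omega⟩
      rcases Nat.eq_zero_or_pos k with hk0 | hk0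
      · exfalso
        apply hP0
        rw [hmod, hk, hk0]
        simp
      · exact hk0
    · show xOf (k • Q) = xOf (m • Q)
      rw [hmod, hk, natCast_zsmul]

/-- `xsOf` depends only on the cyclic subgroup. -/
theorem xsOf_eq_of_mem_zmultiples (Q Q' : W.toAffine.Point) {N : ℕ} (hN : 0 < N)
    (hord : addOrderOf Q = N) (hord' : addOrderOf Q' = N) (hQ' : Q' ∈ AddSubgroup.zmultiples Q) :
    xsOf Q' N = xsOf Q N := by
  have hle : AddSubgroup.zmultiples Q' ≤ AddSubgroup.zmultiples Q :=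
    AddSubgroup.zmultiples_le_of_mem hQ'
  have hfin : Finite (AddSubgroup.zmultiples Q) :=
    Nat.finite_of_card_ne_zero (by rw [Nat.card_zmultiples, hord]; exact hN.ne')
  have heq : AddSubgroup.zmultiples Q' = AddSubgroup.zmultiples Q := by
    refine AddSubgroup.eq_of_le_of_card_ge hle ?_
    rw [Nat.card_zmultiples, Nat.card_zmultiples, hord, hord']
  ext x
  rw [mem_xsOf_iff Q' hN hord', mem_xsOf_iff Q hN hord, heq]

end Field

/-! ### rationality -/

/-- `⟨m • Q⟩` is stable when `⟨Q⟩` is. -/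
theorem stable_nsmul (W' : WeierstrassCurve ℚ) (Q : (W'⁄Qb).Point)
    (hst : ∀ σ : Qb ≃ₐ[ℚ] Qb, σ • Q ∈ AddSubgroup.zmultiples Q) (m : ℕ) (σ : Qb ≃ₐ[ℚ] Qb) :
    σ • (m • Q) ∈ AddSubgroup.zmultiples (m • Q) := by
  obtain ⟨c, hc⟩ := AddSubgroup.mem_zmultiples_iff.1 (hst σ)
  have h1 : σ • (m • Q) = m • (σ • Q) :=
    map_nsmul (DistribMulAction.toAddEquiv (W'⁄Qb).Point σ) m Q
  rw [h1, ← hc, ← natCast_zsmul (c • Q) m, smul_smul, mul_comm, ← smul_smul, natCast_zsmul]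
  exact AddSubgroup.zsmul_mem_zmultiples (m • Q) c

theorem addOrderOf_galois_smul (W' : WeierstrassCurve ℚ) (Q : (W'⁄Qb).Point)
    (σ : Qb ≃ₐ[ℚ] Qb) : addOrderOf (σ • Q) = addOrderOf Q :=
  AddEquiv.addOrderOf_eq (DistribMulAction.toAddEquiv (W'⁄Qb).Point σ) Q

/-- **the Vélu `j`-invariant of a `G_ℚ`-stable cyclic subgroup is rational.** -/
theorem exists_rat_veluJ_of_stable (W' : WeierstrassCurve ℚ) (Q : (W'⁄Qb).Point) {N : ℕ}
    (hN : 0 < N) (hord : addOrderOf Q = N)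
    (hst : ∀ σ : Qb ≃ₐ[ℚ] Qb, σ • Q ∈ AddSubgroup.zmultiples Q) :
    ∃ β₀ : ℚ, veluJ (W'⁄Qb) (xsOf Q N) = (β₀ : Qb) := by
  obtain ⟨β₀, hβ₀⟩ := exists_rat_of_fixed (veluJ (W'⁄Qb) (xsOf Q N)) fun σ => by
    have h2 := veluJ_map_field W' (σ.toAlgHom : Qb →ₐ[ℚ] Qb) Q N
    rw [← Point.algEquiv_smul_def,
      xsOf_eq_of_mem_zmultiples Q (σ • Q) hN hord
        ((addOrderOf_galois_smul W' Q σ).trans hord) (hst σ)] at h2
    exact h2.symm
  exact ⟨β₀, hβ₀.symm⟩

/-- the trivial subgroup: `veluJ W ∅ = c₄³/Δ`. -/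
theorem veluJ_empty {F : Type*} [Field F] (W : WeierstrassCurve F) :
    veluJ W ∅ = W.c₄ ^ 3 / W.Δ := by
  have h : veluCurve W ∅ = W := by
    ext <;> simp [veluCurve, veluT, veluW]
  rw [veluJ, h]

theorem xsOf_one {F : Type*} [Field F] [DecidableEq F] {W : WeierstrassCurve F}
    (Q : W.toAffine.Point) : xsOf Q 1 = ∅ := by
  simp [xsOf]

end

end Fermat.Agent.MS.MOD.RatStable3
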