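/-
Programme MS (S12, Mazur), chapter MOD, file LocalN3 (helper3): **from the local pair statement
`LTPk4.LTPairStatement` to the valuation types and the modular equation of
`(α, β) = (j(E/⟨pQ⟩), j(E/⟨Q⟩))`, `Q` of exact order `p^(k+1)`, NOT necessarily rational.**

* `norm_types_pair` : `1 < ‖α‖`, `‖β‖ = ‖α‖^p` if `Q` does not reduce to the node, `‖β‖^p = ‖α‖` if it
  does;
* `modEq_pair_K` : `Φ(α, β) = 0 = Φ(β, α)` for every `Φ` satisfying the two formal modular relations;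
* `types_pair` : for `W / ℤ`, `r ∣ Δ`, `r ∤ c₄`, `A` over `r`, `f : ℚ̄ → K` with the zero-component
  bridge at `A` (e.g. `f` adapted to `A`, `AdaptedEmb3`), `α₀ β₀ : ℚ` the two Vélu invariants:
  `α₀ ∉ A`, `InZeroComponentAt A Q → v_A(β₀) = v_A(α₀)^p`, `¬ … → v_A(β₀)^p = v_A(α₀)`;
* `modEq_pair_Qb` : `Φ(α₀, β₀) = 0 = Φ(β₀, α₀)` in `ℚ̄`, from one multiplicative prime `r ≠ p`.
-/
import Mathlib
import Fermat.Agent.MS.TATE.LTPk4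
import Fermat.Agent.MS.TATE.AdaptedEmb3
import Fermat.Agent.MS.MOD.RatStable3
import Fermat.Agent.MZ.MOD.ModEqGlobal4

set_option autoImplicit false
set_option linter.unusedSectionVars false
set_option linter.unusedVariables false
set_option linter.style.longLine false

open WeierstrassCurve WeierstrassCurve.Affine

namespace Fermat.Agent.MS.MOD.LocalN3

open Fermat.Agent.MZ.MOD
open TateCurve4 LTTransport5 LocalGlobal5 RedType5 VeluDef4 EvalRel1 ModularCurve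
open Fermat.Agent.MS.TATE.LTPk4 (LTPairStatement)
open Fermat.Agent.IG.PR.Interface20 (evalAt)

local notation "Qb" => AlgebraicClosure ℚ

noncomputable section

/-! ### over `K` -/

section Local

variable {K : Type*} [NormedField K] [IsUltrametricDist K] [CompleteSpace K] [CharZero K]
  [DecidableEq K]

/-- the pair statement in terms of norms. -/
theorem norm_types_pair {jT : K → K} {p k : ℕ} (hp : 0 < p) (hLT : LTPairStatement jT p k)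
    (hnorm : ∀ q : K, q ≠ 0 → ‖q‖ < 1 → ‖jT q‖ = ‖q‖⁻¹)
    (W : WeierstrassCurve K) (hW : IsIntegralW W) (h4 : ‖W.c₄‖ = 1) (hΔ0 : W.Δ ≠ 0)
    (hΔ : ‖W.Δ‖ < 1) (Q : W.toAffine.Point) (hQ : addOrderOf Q = p ^ (k + 1)) :
    1 < ‖veluJ W (xsOf (p • Q) (p ^ k))‖ ∧
      (¬ RedSingPt W Q →
        ‖veluJ W (xsOf Q (p ^ (k + 1)))‖ = ‖veluJ W (xsOf (p • Q) (p ^ k))‖ ^ p) ∧
      (RedSingPt W Q →
        ‖veluJ W (xsOf Q (p ^ (k + 1)))‖ ^ p = ‖veluJ W (xsOf (p • Q) (p ^ k))‖) := by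
  obtain ⟨q, q', hq0, hq1, hα, hβ, hcase⟩ := hLT W hW h4 hΔ0 hΔ Q hQ
  rw [hα, hβ, hnorm q hq0 hq1]
  have hqpos : 0 < ‖q‖ := norm_pos_iff.2 hq0
  refine ⟨(one_lt_inv₀ hqpos).2 hq1, ?_⟩
  rcases hcase with ⟨h1, h2⟩ | ⟨h1, h2⟩
  · refine ⟨fun _ => ?_, fun h3 => absurd h3 h2⟩
    have hq'0 : q' ≠ 0 := by rw [h1]; exact pow_ne_zero p hq0
    have hq'1 : ‖q'‖ < 1 := by
      rw [h1, norm_pow]
      exact pow_lt_one₀ (norm_nonneg q) hq1 hp.ne'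
    rw [hnorm q' hq'0 hq'1, h1, norm_pow, inv_pow]
  · refine ⟨fun h3 => absurd h2 h3, fun _ => ?_⟩
    have hq'0 : q' ≠ 0 := by
      rintro rfl
      rw [zero_pow hp.ne'] at h1
      exact hq0 h1.symm
    have hq'1 : ‖q'‖ < 1 := by
      by_contra hcon
      rw [not_lt] at hcon
      have : 1 ≤ ‖q'‖ ^ p := one_le_pow₀ hcon
      rw [← norm_pow, h1] at this
      linarith
    rw [hnorm q' hq'0 hq'1, inv_pow, ← norm_pow, h1]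

/-- **the modular equation for the pair over `K`.** -/
theorem modEq_pair_K {p k : ℕ} [NeZero p] (hLT : LTPairStatement (K := K) jK p k)
    (Φ : Polynomial (Polynomial ℤ))
    (h1 : Φ.eval₂ (evalAt ℤ (jqModC ℤ)) (qExpand ℤ p (jqModC ℤ)) = 0)
    (h2 : Φ.eval₂ (evalAt ℤ (qExpand ℤ p (jqModC ℤ))) (jqModC ℤ) = 0)
    (W : WeierstrassCurve K) (hW : IsIntegralW W) (h4 : ‖W.c₄‖ = 1) (hΔ0 : W.Δ ≠ 0)
    (hΔ : ‖W.Δ‖ < 1) (Q : W.toAffine.Point) (hQ : addOrderOf Q = p ^ (k + 1)) :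
    Φ.eval₂ (evalAtK (veluJ W (xsOf (p • Q) (p ^ k)))) (veluJ W (xsOf Q (p ^ (k + 1)))) = 0 ∧
      Φ.eval₂ (evalAtK (veluJ W (xsOf Q (p ^ (k + 1))))) (veluJ W (xsOf (p • Q) (p ^ k))) = 0 := by
  have hp : p ≠ 0 := NeZero.ne p
  obtain ⟨q, q', hq0, hq1, hα, hβ, hcase⟩ := hLT W hW h4 hΔ0 hΔ Q hQ
  rw [hα, hβ]
  rcases hcase with ⟨e, -⟩ | ⟨e, -⟩
  · have hq'1 : ‖q ^ p‖ < 1 := by
      rw [norm_pow]
      exact pow_lt_one₀ (norm_nonneg q) hq1 hp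
    rw [e, JacobiK1.jK_eq q hq1, JacobiK1.jK_eq (q ^ p) hq'1]
    exact ⟨eval_rel_j q hq0 hq1 p Φ h1, eval_rel_j' q hq0 hq1 p Φ h2⟩
  · have hq'0 : q' ≠ 0 := by
      rintro rfl
      rw [zero_pow hp] at e
      exact hq0 e.symm
    have hq'1 : ‖q'‖ < 1 := by
      by_contra hcon
      rw [not_lt] at hcon
      have h : 1 ≤ ‖q'‖ ^ p := one_le_pow₀ hcon
      rw [← norm_pow, e] at h
      linarith
    have hqp : ‖q' ^ p‖ < 1 := by rwa [e]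
    rw [← e, JacobiK1.jK_eq q' hq'1, JacobiK1.jK_eq (q' ^ p) hqp]
    exact ⟨eval_rel_j' q' hq'0 hq'1 p Φ h2, eval_rel_j q' hq'0 hq'1 p Φ h1⟩

end Local

/-! ### from `ℚ̄` to `K` -/

section Global

variable {K : Type*} [NormedField K] [IsUltrametricDist K] [CompleteSpace K] [CharZero K]
  [DecidableEq K]

/-- the integrality facts of `W.map (ℤ → K)` at a multiplicative prime `r`. -/
theorem int_facts {r : ℕ} (hK : ∀ n : ℤ, ‖(n : K)‖ < 1 ↔ (r : ℤ) ∣ n)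
    (W : WeierstrassCurve ℤ) (hΔ0 : W.Δ ≠ 0) (hΔ : (r : ℤ) ∣ W.Δ) (hc4 : ¬ (r : ℤ) ∣ W.c₄) :
    IsIntegralW ((W.map (Int.castRingHom ℚ))⁄K) ∧ ‖((W.map (Int.castRingHom ℚ))⁄K).c₄‖ = 1 ∧
      ((W.map (Int.castRingHom ℚ))⁄K).Δ ≠ 0 ∧ ‖((W.map (Int.castRingHom ℚ))⁄K).Δ‖ < 1 := by
  rw [baseChange_eq_map_int W]
  have hc4K : (W.map (Int.castRingHom K)).c₄ = ((W.c₄ : ℤ) : K) := by
    rw [WeierstrassCurve.map_c₄, eq_intCast]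
  have hΔK : (W.map (Int.castRingHom K)).Δ = ((W.Δ : ℤ) : K) := by
    rw [WeierstrassCurve.map_Δ, eq_intCast]
  refine ⟨ZeroComp5.isIntegralW_map_int W, ?_, ?_, ?_⟩
  · rw [hc4K]
    exact le_antisymm (IsUltrametricDist.norm_intCast_le_one K _)
      (not_lt.mp fun hlt => hc4 ((hK _).mp hlt))
  · rw [hΔK]
    exact Int.cast_ne_zero.mpr hΔ0
  · rw [hΔK]
    exact (hK _).mpr hΔ

variable (W : WeierstrassCurve ℤ) (f : Qb →ₐ[ℚ] K)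
  (Q : ((W.map (Int.castRingHom ℚ))⁄Qb).Point)

theorem addOrderOf_map : addOrderOf (Point.map (W' := (W.map (Int.castRingHom ℚ))) f Q) =
    addOrderOf Q :=
  addOrderOf_injective (Point.map (W' := (W.map (Int.castRingHom ℚ))) f) (Point.map_injective f) Q

theorem veluJ_map_rat {N : ℕ} (β₀ : ℚ)
    (hβ : veluJ ((W.map (Int.castRingHom ℚ))⁄Qb) (xsOf Q N) = (β₀ : Qb)) :
    veluJ ((W.map (Int.castRingHom ℚ))⁄K)
      (xsOf (Point.map (W' := (W.map (Int.castRingHom ℚ))) f Q) N) = (β₀ : K) := by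
  rw [veluJ_map, hβ]
  exact map_ratCast f β₀

theorem veluJ_map_rat_nsmul {N m : ℕ} (α₀ : ℚ)
    (hα : veluJ ((W.map (Int.castRingHom ℚ))⁄Qb) (xsOf (m • Q) N) = (α₀ : Qb)) :
    veluJ ((W.map (Int.castRingHom ℚ))⁄K)
      (xsOf (m • Point.map (W' := (W.map (Int.castRingHom ℚ))) f Q) N) = (α₀ : K) := by
  rw [← map_nsmul]
  exact veluJ_map_rat W f (m • Q) α₀ hα

/-- **the valuation types of `(α₀, β₀)` at `A`** (`Q` arbitrary of order `p^(k+1)`; `f` with the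
zero-component bridge at `A`). -/
theorem types_pair {r p k : ℕ} (hr : r.Prime) (hp : 0 < p)
    (hK : ∀ n : ℤ, ‖(n : K)‖ < 1 ↔ (r : ℤ) ∣ n)
    {jT : K → K} (hLT : LTPairStatement jT p k)
    (hnorm : ∀ q : K, q ≠ 0 → ‖q‖ < 1 → ‖jT q‖ = ‖q‖⁻¹)
    (hΔ0 : W.Δ ≠ 0) (hΔ : (r : ℤ) ∣ W.Δ) (hc4 : ¬ (r : ℤ) ∣ W.c₄)
    (hord : addOrderOf Q = p ^ (k + 1)) (α₀ β₀ : ℚ)
    (hα : veluJ ((W.map (Int.castRingHom ℚ))⁄Qb) (xsOf (p • Q) (p ^ k)) = (α₀ : Qb))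
    (hβ : veluJ ((W.map (Int.castRingHom ℚ))⁄Qb) (xsOf Q (p ^ (k + 1))) = (β₀ : Qb))
    {A : ValuationSubring Qb} (hA : A.LiesOverPrime r)
    (hbridge : W.InZeroComponentAt A Q ↔
      ¬ RedSingPt ((W.map (Int.castRingHom ℚ))⁄K) (Point.map f Q)) :
    (α₀ : Qb) ∉ A ∧
      (W.InZeroComponentAt A Q → A.valuation (β₀ : Qb) = A.valuation (α₀ : Qb) ^ p) ∧
      (¬ W.InZeroComponentAt A Q → A.valuation (β₀ : Qb) ^ p = A.valuation (α₀ : Qb)) := by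
  obtain ⟨hint, h4, hΔ0K, hΔ1K⟩ := int_facts hK W hΔ0 hΔ hc4
  have hordK := (addOrderOf_map W f Q).trans hord
  obtain ⟨h1α, hns, hs⟩ := norm_types_pair hp hLT hnorm _ hint h4 hΔ0K hΔ1K _ hordK
  rw [veluJ_map_rat W f Q β₀ hβ, veluJ_map_rat_nsmul W f Q α₀ hα] at hns hs
  rw [veluJ_map_rat_nsmul W f Q α₀ hα] at h1α
  obtain ⟨h1, h2, h3⟩ := val_of_norm (p := p) hr hK hA α₀ β₀ h1α
  refine ⟨h1, fun hin => h2 (hns (hbridge.mp hin)), fun hnin => h3 (hs ?_)⟩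
  by_contra hcon
  exact hnin (hbridge.mpr hcon)

include f in
/-- **the modular equation for `(α₀, β₀)` over `ℚ`**, from the pair statement over `K` at one
multiplicative prime `r`. -/
theorem modEq_pair_rat {r p k : ℕ} [NeZero p]
    (hK : ∀ n : ℤ, ‖(n : K)‖ < 1 ↔ (r : ℤ) ∣ n) (hLT : LTPairStatement (K := K) jK p k)
    (hΔ0 : W.Δ ≠ 0) (hΔ : (r : ℤ) ∣ W.Δ) (hc4 : ¬ (r : ℤ) ∣ W.c₄)
    (hord : addOrderOf Q = p ^ (k + 1)) (α₀ β₀ : ℚ)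
    (hα : veluJ ((W.map (Int.castRingHom ℚ))⁄Qb) (xsOf (p • Q) (p ^ k)) = (α₀ : Qb))
    (hβ : veluJ ((W.map (Int.castRingHom ℚ))⁄Qb) (xsOf Q (p ^ (k + 1))) = (β₀ : Qb))
    (Φ : Polynomial (Polynomial ℤ))
    (h1 : Φ.eval₂ (evalAt ℤ (jqModC ℤ)) (qExpand ℤ p (jqModC ℤ)) = 0)
    (h2 : Φ.eval₂ (evalAt ℤ (qExpand ℤ p (jqModC ℤ))) (jqModC ℤ) = 0) :
    Φ.eval₂ (Polynomial.eval₂RingHom (Int.castRingHom ℚ) α₀) β₀ = 0 ∧
      Φ.eval₂ (Polynomial.eval₂RingHom (Int.castRingHom ℚ) β₀) α₀ = 0 := by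
  obtain ⟨hint, h4, hΔ0K, hΔ1K⟩ := int_facts hK W hΔ0 hΔ hc4
  have hordK := (addOrderOf_map W f Q).trans hord
  obtain ⟨k1, k2⟩ := modEq_pair_K hLT Φ h1 h2 _ hint h4 hΔ0K hΔ1K _ hordK
  rw [veluJ_map_rat W f Q β₀ hβ, veluJ_map_rat_nsmul W f Q α₀ hα] at k1 k2
  exact ⟨ModEqGlobal4.eval₂_rat_of_K Φ _ _ k1, ModEqGlobal4.eval₂_rat_of_K Φ _ _ k2⟩

end Global

/-! ### the instance `K = ℂ_[r]` -/

section PadicComplexInst

variable (W : WeierstrassCurve ℤ) (Q : ((W.map (Int.castRingHom ℚ))⁄Qb).Point)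

/-- the pair statement over `ℂ_[r]`, `r ≠ p`. -/
theorem ltPair_padicComplex (r : ℕ) [Fact r.Prime] [DecidableEq ℂ_[r]] {p : ℕ}
    [hp : Fact p.Prime] (hp3 : 3 < p) (hrp : r ≠ p) (k : ℕ) :
    LTPairStatement (K := ℂ_[r]) jK p k :=
  Fermat.Agent.MS.TATE.LTPk4.ltPairStatement hp3
    (ModEqGlobal4.norm_natCast_padicComplex r hp.out hrp) k

/-- **the valuation types of `(α₀, β₀)` at every place over a multiplicative prime `r ≠ p`.** -/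
theorem types_pair_at {p : ℕ} [hp : Fact p.Prime] (hp3 : 3 < p) (k : ℕ)
    (hΔ0 : W.Δ ≠ 0) (hord : addOrderOf Q = p ^ (k + 1)) (α₀ β₀ : ℚ)
    (hα : veluJ ((W.map (Int.castRingHom ℚ))⁄Qb) (xsOf (p • Q) (p ^ k)) = (α₀ : Qb))
    (hβ : veluJ ((W.map (Int.castRingHom ℚ))⁄Qb) (xsOf Q (p ^ (k + 1))) = (β₀ : Qb))
    {r : ℕ} (hr : r.Prime) (hrp : r ≠ p) (hΔ : (r : ℤ) ∣ W.Δ) (hc4 : ¬ (r : ℤ) ∣ W.c₄)
    {A : ValuationSubring Qb} (hA : A.LiesOverPrime r) :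
    (α₀ : Qb) ∉ A ∧
      (W.InZeroComponentAt A Q → A.valuation (β₀ : Qb) = A.valuation (α₀ : Qb) ^ p) ∧
      (¬ W.InZeroComponentAt A Q → A.valuation (β₀ : Qb) ^ p = A.valuation (α₀ : Qb)) := by
  classical
  haveI : Fact r.Prime := ⟨hr⟩
  obtain ⟨f, hf⟩ := Fermat.Agent.MS.TATE.AdaptedEmb3.exists_adapted r A hA
  exact types_pair W f Q hr hp.out.pos (ZeroComp5.norm_intCast_padicComplex_lt_one_iff r)
    (ltPair_padicComplex r hp3 hrp k) (fun q hq0 hq1 => TateLTFinal4.norm_jK q hq0 hq1)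
    hΔ0 hΔ hc4 hord α₀ β₀ hα hβ hA
    (Fermat.Agent.MS.TATE.AdaptedEmb3.inZeroComponentAt_iff_map W hf Q)

/-- **the modular equation for `(α₀, β₀)` in `ℚ̄`.** -/
theorem modEq_pair_Qb {p : ℕ} [hp : Fact p.Prime] (hp3 : 3 < p) (k : ℕ)
    (hΔ0 : W.Δ ≠ 0) (hord : addOrderOf Q = p ^ (k + 1)) (α₀ β₀ : ℚ)
    (hα : veluJ ((W.map (Int.castRingHom ℚ))⁄Qb) (xsOf (p • Q) (p ^ k)) = (α₀ : Qb))
    (hβ : veluJ ((W.map (Int.castRingHom ℚ))⁄Qb) (xsOf Q (p ^ (k + 1))) = (β₀ : Qb))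
    {r : ℕ} (hr : r.Prime) (hrp : r ≠ p) (hΔ : (r : ℤ) ∣ W.Δ) (hc4 : ¬ (r : ℤ) ∣ W.c₄)
    (Φ : Polynomial (Polynomial ℤ))
    (h1 : Φ.eval₂ (evalAt ℤ (jqModC ℤ)) (qExpand ℤ p (jqModC ℤ)) = 0)
    (h2 : Φ.eval₂ (evalAt ℤ (qExpand ℤ p (jqModC ℤ))) (jqModC ℤ) = 0) :
    Φ.eval₂ (Polynomial.eval₂RingHom (Int.castRingHom Qb) ((α₀ : ℚ) : Qb)) ((β₀ : ℚ) : Qb) = 0 ∧
      Φ.eval₂ (Polynomial.eval₂RingHom (Int.castRingHom Qb) ((β₀ : ℚ) : Qb)) ((α₀ : ℚ) : Qb) = 0 := by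
  classical
  haveI : Fact r.Prime := ⟨hr⟩
  haveI : NeZero p := ⟨hp.out.ne_zero⟩
  let f : Qb →ₐ[ℚ] ℂ_[r] := IsAlgClosed.lift
  obtain ⟨k1, k2⟩ := modEq_pair_rat W f Q (ZeroComp5.norm_intCast_padicComplex_lt_one_iff r)
    (ltPair_padicComplex r hp3 hrp k) hΔ0 hΔ hc4 hord α₀ β₀ hα hβ Φ h1 h2
  exact ⟨ModEqGlobal4.eval₂_cast Φ _ _ k1, ModEqGlobal4.eval₂_cast Φ _ _ k2⟩

end PadicComplexInst

end

end Fermat.Agent.MS.MOD.LocalN3
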