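/-
Programme MS (S12, Mazur), chapter MOD, file BridgeN3 (helper3): **the moduli bridge for a
`G_ℚ`-STABLE cyclic subgroup of order `p^(k+1)`** (Route B of S12; the analogue of
`MZ/MOD/BridgeFinal4.moduliBridge`, where the generator was a rational point of order `p`).

`W / ℤ`, `Δ ≠ 0`, `Q ∈ W(ℚ̄)` of exact order `p^(k+1)` with `σ • Q ∈ ⟨Q⟩` for all `σ ∈ G_ℚ`
(`p ∉ {2,3,5,7,13}`).  Then `α₀ = j(W/⟨pQ⟩)`, `β₀ = j(W/⟨Q⟩)` are rational, satisfy the modular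
equation of level `p`, and the place `x = (α₀, β₀)` of `FF p = ℚ̄(j, j_p)` is `G_ℚ`-fixed, of type `∞`
at `A ∣ r` (`r ≠ p` multiplicative) iff `Q` is in the zero component at `A` (i.e. `⟨Q⟩` is the
canonical subgroup at `A`), of type `0` otherwise (`moduliBridgeN`).  No hypothesis on `⟨pQ⟩`.
-/
import Mathlib
import Fermat.Agent.MS.MOD.LocalN3
import Fermat.Agent.MZ.MOD.BridgeFinal4

set_option autoImplicit false
set_option linter.unusedSectionVars false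
set_option linter.unusedVariables false
set_option linter.style.longLine false
set_option synthInstance.maxHeartbeats 400000
set_option maxHeartbeats 1000000

open AlgebraicCurve ModularCurve
open WeierstrassCurve WeierstrassCurve.Affine

noncomputable section

namespace Fermat.Agent.MS.MOD.BridgeN3

open Fermat.Agent.X0 Fermat.Agent.MZ.CUSP.CuspPlaces1 Fermat.Agent.MZ.MOD.Types2
open Fermat.Agent.MZ.MOD
open TateCurve4 LTTransport5 LocalGlobal5 RedType5 VeluDef4 RatPoint5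
open Fermat.Agent.MS.MOD.RatStable3 Fermat.Agent.MS.MOD.LocalN3
open Fermat.Agent.IG.PR.Interface20 (evalAt)

/-- **the moduli bridge for a `G_ℚ`-stable cyclic subgroup of order `p^(k+1)`.** -/
theorem moduliBridgeN {p : ℕ} [NeZero p] (hp : p.Prime)
    (hp' : p ∉ ({2, 3, 5, 7, 13} : Finset ℕ)) (k : ℕ)
    (W : WeierstrassCurve ℤ) (hΔ : W.Δ ≠ 0)
    (Q : ((W.map (Int.castRingHom ℚ))⁄(AlgebraicClosure ℚ)).Point)
    (hQst : ∀ σ : AlgebraicClosure ℚ ≃ₐ[ℚ] AlgebraicClosure ℚ, σ • Q ∈ AddSubgroup.zmultiples Q)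
    (hQord : addOrderOf Q = p ^ (k + 1)) :
    ∃ x : Place Kbar (FF p),
      (∀ σ : Kbar ≃ₐ[ℚ] Kbar, arithmeticGalois (modularFunctionFieldFull p) σ • x = x) ∧
      ∀ r : ℕ, r.Prime → r ≠ p → (r : ℤ) ∣ W.Δ → ¬ (r : ℤ) ∣ W.c₄ →
        ∀ A : ValuationSubring Kbar, A.LiesOverPrime r →
          (¬ W.InZeroComponentAt A Q → IsZeroType p A x) ∧
          (W.InZeroComponentAt A Q → IsInfType p A x) := by
  have : Fact p.Prime := ⟨hp⟩
  have hp3 : 3 < p := by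
    have h2 := hp.two_le
    simp only [Finset.mem_insert, Finset.mem_singleton, not_or] at hp'
    obtain ⟨n2, n3, -, -, -⟩ := hp'
    omega
  by_cases hex : ∃ r : ℕ, r.Prime ∧ r ≠ p ∧ (r : ℤ) ∣ W.Δ ∧ ¬ (r : ℤ) ∣ W.c₄
  · obtain ⟨r₀, hr₀, hr₀p, hr₀Δ, hr₀c⟩ := hex
    have : Fact r₀.Prime := ⟨hr₀⟩
    -- the two rational invariants
    have hordp : addOrderOf (p • Q) = p ^ k :=
      Fermat.Agent.MS.TATE.LTPk4.addOrderOf_p_nsmul Q k hQord
    obtain ⟨α₀, hα⟩ := exists_rat_veluJ_of_stable _ (p • Q) (pow_pos hp.pos k) hordp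
      (stable_nsmul _ Q hQst p)
    obtain ⟨β₀, hβ⟩ := exists_rat_veluJ_of_stable _ Q (pow_pos hp.pos (k + 1)) hQord hQst
    obtain ⟨Φ, hm, hd, h1, h2⟩ := Fermat.Agent.IG.AN.ModPoly3.p0 p hp
    obtain ⟨k1, -⟩ := modEq_pair_Qb W Q hp3 k hΔ hQord α₀ β₀ hα hβ hr₀ hr₀p hr₀Δ hr₀c Φ h1 h2
    obtain ⟨x, hxα, hxβ⟩ := BridgeFinal4.placeExists hp Φ hm hd h1 h2 _ _ k1
    -- the types at every multiplicative prime
    have htypes : ∀ r : ℕ, r.Prime → r ≠ p → (r : ℤ) ∣ W.Δ → ¬ (r : ℤ) ∣ W.c₄ →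
        ∀ A : ValuationSubring Kbar, A.LiesOverPrime r →
          ((α₀ : ℚ) : Kbar) ∉ A ∧
          (W.InZeroComponentAt A Q →
            A.valuation ((β₀ : ℚ) : Kbar) = A.valuation ((α₀ : ℚ) : Kbar) ^ p) ∧
          (¬ W.InZeroComponentAt A Q →
            A.valuation ((β₀ : ℚ) : Kbar) ^ p = A.valuation ((α₀ : ℚ) : Kbar)) := by
      intro r hr hrp hrΔ hrc A hA
      exact types_pair_at W Q hp3 k hΔ hQord α₀ β₀ hα hβ hr hrp hrΔ hrc hA
    refine ⟨x, ?_, ?_⟩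
    · intro σ
      have hA₀ : (padicPlace r₀).LiesOverPrime r₀ := Fermat.Agent.FF.BASE.Place2.liesOverPrime r₀
      obtain ⟨t1, t2, t3⟩ := htypes r₀ hr₀ hr₀p hr₀Δ hr₀c _ hA₀
      refine Unique2.galois_smul_eq_of_typed hp hr₀ hr₀p hA₀ x _ _ (fun τ => ?_) (fun τ => ?_) t1
        hxα hxβ ?_ σ
      · exact map_ratCast τ _
      · exact map_ratCast τ _
      · by_cases hin : W.InZeroComponentAt (padicPlace r₀) Q
        · exact Or.inr (t2 hin)
        · exact Or.inl (t3 hin)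
    · intro r hr hrp hrΔ hrc A hA
      obtain ⟨t1, t2, t3⟩ := htypes r hr hrp hrΔ hrc A hA
      exact ⟨fun hn => ⟨_, _, t1, hxα, hxβ, t3 hn⟩, fun hin => ⟨_, _, t1, hxα, hxβ, t2 hin⟩⟩
  · refine ⟨cuspInf p, fun σ => arithmeticGalois_smul_cuspInf p σ, ?_⟩
    intro r hr hrp hrΔ hrc
    exact absurd ⟨r, hr, hrp, hrΔ, hrc⟩ hex

end Fermat.Agent.MS.MOD.BridgeN3
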